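/-
TW-FLAT, `Loc.Mono` (shadow of row 338), part 1: coset systems in `GQ`.

`H ≤ G ≤ GQ` with a system of representatives `τ i` (`i < n`) of `G / H`.

* `CosetData.exists_perm` : `σ ∈ G` permutes the conjugates `τ i x` of an `H`-fixed `x`;
* `CosetData.prod_fixed`  : the norm `∏ τ i x` of an `H`-fixed element is `G`-fixed;
* `isClosed_of_open_in`, `mem_of_forall_fixed` : a subgroup of a closed subgroup `G` containing
  `G ⊓ Gal(Qb / L₀)` for a finite `L₀` is closed, hence is the group of its fixed field;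
* `CosetData.dedekind` : the restrictions of the `τ i` to the `H`-fixed elements are linearly
  independent over `Qb`.
-/
import Mathlib
import Fermat.Agent.Lib.GalQbar
import Fermat.Agent.S53.Defs

set_option autoImplicit false

namespace Fermat.Agent.TW.Flat.Loc.MonoB

open Fermat.Agent.S53

open scoped Pointwise

local notation "Qb" => AlgebraicClosure ℚ

attribute [local instance] Fermat.Agent.Lib.GalQbar.isAlgClosure_rat
  Fermat.Agent.Lib.GalQbar.isGalois_rat Fermat.Agent.Lib.GalQbar.isAlgebraic_rat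
  Fermat.Agent.Lib.GalQbar.normal_rat

/-- A system of representatives `τ i`, `i < n`, of `G / H`. -/
structure CosetData (G H : Subgroup GQ) (n : ℕ) (τ : Fin n → GQ) : Prop where
  le : H ≤ G
  mem : ∀ i, τ i ∈ G
  uniq : ∀ σ ∈ G, ∃! i, (τ i)⁻¹ * σ ∈ H

namespace CosetData

variable {G H : Subgroup GQ} {n : ℕ} {τ : Fin n → GQ} (h : CosetData G H n τ)

include h

theorem eq_of_mem {i j : Fin n} (hij : (τ i)⁻¹ * τ j ∈ H) : i = j := by
  obtain ⟨k, -, hk⟩ := h.uniq (τ j) (h.mem j)
  have h1 : i = k := hk i hij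
  have h2 : j = k := hk j (by
    show (τ j)⁻¹ * τ j ∈ H
    rw [inv_mul_cancel]
    exact H.one_mem)
  rw [h1, h2]

/-- One of the representatives lies in `H`. -/
theorem exists_mem : ∃ i₀, τ i₀ ∈ H := by
  obtain ⟨i, hi, -⟩ := h.uniq 1 G.one_mem
  refine ⟨i, ?_⟩
  have h1 : (τ i)⁻¹ ∈ H := by simpa using hi
  simpa using H.inv_mem h1

/-- `σ ∈ G` permutes the cosets. -/
theorem exists_perm {σ : GQ} (hσ : σ ∈ G) :
    ∃ π : Equiv.Perm (Fin n), ∀ i, (τ (π i))⁻¹ * (σ * τ i) ∈ H := by
  have hex : ∀ i, ∃ j, (τ j)⁻¹ * (σ * τ i) ∈ H := fun i =>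
    (h.uniq (σ * τ i) (G.mul_mem hσ (h.mem i))).exists
  choose f hf using hex
  have hinj : Function.Injective f := by
    intro i i' hii
    apply h.eq_of_mem
    have h1 := hf i
    have h2 := hf i'
    rw [← hii] at h2
    have h3 := H.mul_mem (H.inv_mem h1) h2
    have e : ((τ (f i))⁻¹ * (σ * τ i))⁻¹ * ((τ (f i))⁻¹ * (σ * τ i')) = (τ i)⁻¹ * τ i' := by
      group
    rwa [e] at h3
  exact ⟨Equiv.ofBijective f (Finite.injective_iff_bijective.mp hinj), hf⟩

/-- `σ ∈ G` permutes the conjugates of an `H`-fixed element. -/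
theorem exists_perm_apply {σ : GQ} (hσ : σ ∈ G) :
    ∃ π : Equiv.Perm (Fin n), ∀ i, ∀ x : Qb, (∀ g ∈ H, g x = x) → σ (τ i x) = τ (π i) x := by
  obtain ⟨π, hπ⟩ := h.exists_perm hσ
  refine ⟨π, fun i x hx => ?_⟩
  have h1 := hx _ (hπ i)
  have h2 : (τ (π i) * ((τ (π i))⁻¹ * (σ * τ i))) x = τ (π i) x := by
    rw [AlgEquiv.mul_apply, h1]
  rw [mul_inv_cancel_left] at h2
  exact h2

/-- The norm of an `H`-fixed element is `G`-fixed. -/
theorem prod_fixed {x : Qb} (hx : ∀ g ∈ H, g x = x) {σ : GQ} (hσ : σ ∈ G) :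
    σ (∏ i, τ i x) = ∏ i, τ i x := by
  obtain ⟨π, hπ⟩ := h.exists_perm_apply hσ
  rw [map_prod]
  rw [Finset.prod_congr rfl fun i _ => hπ i x hx]
  exact Equiv.prod_comp π (fun i => τ i x)

end CosetData

/-- A subgroup `H` of a closed subgroup `G` which contains the elements of `G` fixing a finite
extension `L₀` is closed. -/
theorem isClosed_of_open_in (G H : Subgroup GQ) (hG : IsClosed (G : Set GQ)) (hle : H ≤ G)
    (L₀ : IntermediateField ℚ Qb) [FiniteDimensional ℚ L₀]
    (hL : ∀ σ ∈ G, (∀ x ∈ L₀, σ x = x) → σ ∈ H) : IsClosed (H : Set GQ) := by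
  apply isClosed_of_closure_subset
  intro σ hσ
  have hσG : σ ∈ G := closure_minimal (fun g hg => hle hg) hG hσ
  have hU : IsOpen (L₀.fixingSubgroup : Set GQ) := L₀.fixingSubgroup_isOpen
  have hmem : σ ∈ σ • (L₀.fixingSubgroup : Set GQ) :=
    ⟨1, L₀.fixingSubgroup.one_mem, by simp⟩
  obtain ⟨g, ⟨u, hu, hug⟩, hgH⟩ := mem_closure_iff.mp hσ _ (hU.leftCoset σ) hmem
  have hug' : σ * u = g := hug
  have huG : u ∈ G := by
    have e : u = σ⁻¹ * g := by rw [← hug']; group
    rw [e]
    exact G.mul_mem (G.inv_mem hσG) (hle hgH)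
  have huH : u ∈ H := hL u huG (fun x hx => (IntermediateField.mem_fixingSubgroup_iff L₀ u).mp hu x hx)
  have e : σ = g * u⁻¹ := by rw [← hug']; group
  rw [e]
  exact H.mul_mem hgH (H.inv_mem huH)

/-- A closed subgroup is the group of its fixed field. -/
theorem mem_of_forall_fixed {H : Subgroup GQ} (hcl : IsClosed (H : Set GQ)) {σ : GQ}
    (hσ : ∀ x : Qb, (∀ g ∈ H, g x = x) → σ x = x) : σ ∈ H := by
  have h1 := InfiniteGalois.fixingSubgroup_fixedField (⟨H, hcl⟩ : ClosedSubgroup GQ)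
  have h2 : σ ∈ (IntermediateField.fixedField H).fixingSubgroup := by
    rw [IntermediateField.mem_fixingSubgroup_iff]
    intro x hx
    exact hσ x (fun g hg => (IntermediateField.mem_fixedField_iff H x).mp hx g hg)
  rw [h1] at h2
  exact h2

/-- **Dedekind independence** of the restrictions of the representatives to the `H`-fixed
elements. -/
theorem CosetData.dedekind {G H : Subgroup GQ} {n : ℕ} {τ : Fin n → GQ}
    (h : CosetData G H n τ) (hcl : IsClosed (H : Set GQ)) (c : Fin n → Qb)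
    (hc : ∀ x : Qb, (∀ g ∈ H, g x = x) → ∑ i, c i * τ i x = 0) : ∀ i, c i = 0 := by
  let Lf : IntermediateField ℚ Qb := IntermediateField.fixedField H
  let χ : Fin n → (Lf →* Qb) := fun i =>
    { toFun := fun x => τ i (x : Qb)
      map_one' := by simp
      map_mul' := fun x y => by simp }
  have hinj : Function.Injective χ := by
    intro i j hij
    apply h.eq_of_mem
    apply mem_of_forall_fixed hcl
    intro x hx
    have hxL : x ∈ Lf := (IntermediateField.mem_fixedField_iff H x).mpr hx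
    have h1 : τ i x = τ j x := congrArg (fun f : Lf →* Qb => f ⟨x, hxL⟩) hij
    rw [AlgEquiv.mul_apply, ← h1]
    exact AlgEquiv.symm_apply_apply (τ i) x
  have hli : LinearIndependent Qb (fun i => (χ i : Lf → Qb)) :=
    (linearIndependent_monoidHom Lf Qb).comp χ hinj
  refine Fintype.linearIndependent_iff.mp hli c ?_
  funext x
  rw [Finset.sum_apply, Pi.zero_apply]
  have := hc (x : Qb) (fun g hg => (IntermediateField.mem_fixedField_iff H x).mp x.2 g hg)
  simpa [χ] using this

end Fermat.Agent.TW.Flat.Loc.MonoB
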