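/-
TW-FLAT, `Loc.Mono` (shadow of row 338), part 2: the valuation of the fixed field of `H`.

`P` over `p`, `ϖ ^ e = -p`, `G_F = {σ ∈ I | σ ϖ = ϖ}` (`GF P ϖ`), `H ≤ G_F` with representatives
`τ i` (`i < n`) of `G_F / H`.

* `exists_val_pow_eq` : `v(x)^n ∈ v(ϖ)^ℤ` for `H`-fixed `x ≠ 0` (norm + `fVal`);
* `exists_unif` : a uniformiser `Π` of the `H`-fixed elements, with `v(Π)^e' = v(ϖ)`, `e' ≤ n`;
* `exists_expansion_pow` : every integral `H`-fixed `x` is, for every `N`, of the form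
  `Σ_{j<e'} b_j Π^j + ϖ^N x'` with `b_j` fixed by `G_F` and `x'` integral `H`-fixed
  (Teichmüller representatives).
-/
import Mathlib
import Fermat.Agent.TW.Flat.Local.Tame
import Fermat.Agent.TW.Flat.Local.Teich
import Fermat.Agent.TW.Flat.Local.MonoB.Group

set_option autoImplicit false

namespace Fermat.Agent.TW.Flat.Loc.MonoB

open Fermat.Agent.S53 Fermat.Agent.TW.Flat

local notation "Qb" => AlgebraicClosure ℚ

/-- `G_F = {σ ∈ I | σ ϖ = ϖ}`. -/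
def GF (P : ValuationSubring Qb) (ϖ : Qb) : Subgroup GQ where
  carrier := {σ | σ ∈ P.inertiaSubgroupIn ℚ ∧ σ ϖ = ϖ}
  mul_mem' := by
    rintro a b ⟨ha, ha'⟩ ⟨hb, hb'⟩
    exact ⟨mul_mem ha hb, by rw [AlgEquiv.mul_apply, hb', ha']⟩
  one_mem' := ⟨one_mem _, rfl⟩
  inv_mem' := by
    rintro a ⟨ha, ha'⟩
    refine ⟨inv_mem ha, ?_⟩
    have h1 : (a⁻¹ * a) ϖ = a⁻¹ ϖ := by rw [AlgEquiv.mul_apply, ha']
    rw [inv_mul_cancel] at h1
    exact h1.symm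

theorem mem_GF {P : ValuationSubring Qb} {ϖ : Qb} {σ : GQ} :
    σ ∈ GF P ϖ ↔ σ ∈ P.inertiaSubgroupIn ℚ ∧ σ ϖ = ϖ := Iff.rfl

theorem isClosed_GF (P : ValuationSubring Qb) (ϖ : Qb) : IsClosed ((GF P ϖ : Subgroup GQ) : Set GQ) := by
  have hset : ((GF P ϖ : Subgroup GQ) : Set GQ) =
      ((P.inertiaSubgroupIn ℚ : Subgroup GQ) : Set GQ) ∩ {σ : GQ | σ ϖ ∈ ({ϖ} : Set Qb)} := by
    ext σ
    simp only [SetLike.mem_coe, Set.mem_inter_iff, Set.mem_setOf_eq, Set.mem_singleton_iff]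
    exact mem_GF
  rw [hset]
  exact (Tame.isClosed_inertia P).inter (Fermat.Agent.PT.G.isClosed_setOf_apply_mem ϖ _)

/-- Elements of `G_F` preserve the valuation. -/
theorem val_apply {P : ValuationSubring Qb} {ϖ : Qb} {σ : GQ} (hσ : σ ∈ GF P ϖ) (x : Qb) :
    P.valuation (σ x) = P.valuation x :=
  Fermat.Agent.PT.G.valuation_apply_eq_of_mem_decomp (Basic.inertia_le_decomp P hσ.1) x

/-- In a linearly ordered group with zero, `g ^ n = 1` forces `g = 1`. -/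
theorem eq_one_of_pow_eq_one {Γ₀ : Type*} [LinearOrderedCommGroupWithZero Γ₀] {g : Γ₀} {n : ℕ}
    (hn : n ≠ 0) (h : g ^ n = 1) : g = 1 :=
  (pow_left_inj₀ zero_le zero_le hn).mp (by rw [h, one_pow])

section Setting

variable {p : ℕ} [hp : Fact p.Prime] {P : ValuationSubring Qb} {e : ℕ} {ϖ : Qb}
  {H : Subgroup GQ} {n : ℕ} {τ : Fin n → GQ}

/-- The `n`-th power of the valuation of an `H`-fixed element is a power of `v(ϖ)`. -/
theorem exists_val_pow_eq (h : CosetData (GF P ϖ) H n τ) (hP : P.LiesOverPrime p) (he : 0 < e)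
    (hϖ : ϖ ^ e = -(p : Qb)) {x : Qb} (hx0 : x ≠ 0) (hx : ∀ g ∈ H, g x = x) :
    ∃ m : ℤ, P.valuation x ^ n = P.valuation ϖ ^ m := by
  have hN0 : ∏ i, τ i x ≠ 0 :=
    Finset.prod_ne_zero_iff.mpr fun i _ => (map_ne_zero (τ i)).mpr hx0
  obtain ⟨m, hm⟩ := Tame.fVal_aux hP he hϖ (∏ i, τ i x) hN0
    (fun σ hσ hσϖ => h.prod_fixed hx (mem_GF.mpr ⟨hσ, hσϖ⟩))
  refine ⟨m, ?_⟩
  have h1 := (Basic.isPUnit_iff_valuation_eq_one P _).mp hm
  rw [map_div₀, map_zpow₀, div_eq_one_iff_eq (zpow_ne_zero _ (Tame.val_pi_pos he hϖ).ne')] at h1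
  rw [← h1, map_prod, Finset.prod_congr rfl fun i _ => val_apply (h.mem i) x, Finset.prod_const,
    Finset.card_univ, Fintype.card_fin]

/-- **The uniformiser.** -/
theorem exists_unif (h : CosetData (GF P ϖ) H n τ) (hP : P.LiesOverPrime p) (he : 0 < e)
    (hϖ : ϖ ^ e = -(p : Qb)) (hn : 0 < n) :
    ∃ (Pi : Qb) (e' : ℕ), 0 < e' ∧ e' ≤ n ∧ Pi ≠ 0 ∧ (∀ g ∈ H, g Pi = Pi) ∧
      P.valuation Pi < 1 ∧ P.valuation Pi ^ e' = P.valuation ϖ ∧
      ∀ x : Qb, x ≠ 0 → (∀ g ∈ H, g x = x) → ∃ q : ℤ, P.valuation x = P.valuation Pi ^ q := by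
  classical
  have hγ0 : 0 < P.valuation ϖ := Tame.val_pi_pos he hϖ
  have hγ1 : P.valuation ϖ < 1 := Tame.val_pi_lt_one hP hϖ
  have hϖ0 : ϖ ≠ 0 := Tame.pi_ne_zero he hϖ
  have hϖH : ∀ g ∈ H, g ϖ = ϖ := fun g hg => (mem_GF.mp (h.le hg)).2
  have hex : ∃ d : ℕ, 0 < d ∧ ∃ x : Qb, x ≠ 0 ∧ (∀ g ∈ H, g x = x) ∧
      P.valuation x ^ n = P.valuation ϖ ^ d := ⟨n, hn, ϖ, hϖ0, hϖH, rfl⟩
  obtain ⟨hd, Pi, hPi0, hPiH, hPiv⟩ := Nat.find_spec hex
  have hmin := fun m => Nat.find_min hex (m := m)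
  set d := Nat.find hex with hd_def
  have hπ0 : 0 < P.valuation Pi := zero_lt_iff.mpr ((Valuation.ne_zero_iff _).mpr hPi0)
  -- the key divisibility
  have key : ∀ x : Qb, x ≠ 0 → (∀ g ∈ H, g x = x) →
      ∃ q : ℤ, P.valuation x = P.valuation Pi ^ q ∧
        P.valuation x ^ n = P.valuation ϖ ^ ((d : ℤ) * q) := by
    intro x hx0 hxH
    obtain ⟨m, hm⟩ := exists_val_pow_eq h hP he hϖ hx0 hxH
    have hdZ : (0 : ℤ) < d := by exact_mod_cast hd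
    have hr0 : 0 ≤ m % (d : ℤ) := Int.emod_nonneg m hdZ.ne'
    have hrd : m % (d : ℤ) < d := Int.emod_lt_of_pos m hdZ
    have hy0 : x / Pi ^ (m / (d : ℤ)) ≠ 0 := div_ne_zero hx0 (zpow_ne_zero _ hPi0)
    have hyH : ∀ g ∈ H, g (x / Pi ^ (m / (d : ℤ))) = x / Pi ^ (m / (d : ℤ)) := by
      intro g hg
      rw [map_div₀, map_zpow₀, hxH g hg, hPiH g hg]
    have hswap : (P.valuation Pi ^ (m / (d : ℤ))) ^ n = P.valuation ϖ ^ ((d : ℤ) * (m / (d : ℤ))) := by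
      rw [← zpow_natCast (P.valuation Pi ^ (m / (d : ℤ))) n, ← zpow_mul, mul_comm, zpow_mul,
        zpow_natCast, hPiv, ← zpow_natCast (P.valuation ϖ) d, ← zpow_mul]
    have hyv : P.valuation (x / Pi ^ (m / (d : ℤ))) ^ n = P.valuation ϖ ^ (m % (d : ℤ)) := by
      rw [map_div₀, map_zpow₀, div_pow, hm, hswap, ← zpow_sub₀ hγ0.ne', Int.emod_def]
    have hr : m % (d : ℤ) = 0 := by
      by_contra hne
      have hpos : 0 < m % (d : ℤ) := lt_of_le_of_ne hr0 (Ne.symm hne)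
      have hlt : (m % (d : ℤ)).toNat < d := by
        have := Int.toNat_of_nonneg hr0
        omega
      refine hmin _ hlt ⟨by
        have := Int.toNat_of_nonneg hr0
        omega, x / Pi ^ (m / (d : ℤ)), hy0, hyH, ?_⟩
      rw [hyv, ← zpow_natCast (P.valuation ϖ), Int.toNat_of_nonneg hr0]
    rw [hr, zpow_zero] at hyv
    have h1 := eq_one_of_pow_eq_one hn.ne' hyv
    rw [map_div₀, map_zpow₀, div_eq_one_iff_eq (zpow_ne_zero _ hπ0.ne')] at h1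
    refine ⟨m / (d : ℤ), h1, ?_⟩
    rw [hm]
    congr 1
    have := Int.emod_def m d
    omega
  -- the ramification index
  obtain ⟨q, hq, hq'⟩ := key ϖ hϖ0 hϖH
  have hnq : (n : ℤ) = (d : ℤ) * q := by
    apply zpow_right_injective₀ hγ0 hγ1.ne
    show P.valuation ϖ ^ (n : ℤ) = P.valuation ϖ ^ ((d : ℤ) * q)
    rw [zpow_natCast]
    exact hq'
  have hq0 : 0 < q := by
    have hdZ : (0 : ℤ) < d := by exact_mod_cast hd
    have hnZ : (0 : ℤ) < n := by exact_mod_cast hn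
    by_contra hcon
    rw [not_lt] at hcon
    have : (d : ℤ) * q ≤ 0 := mul_nonpos_of_nonneg_of_nonpos hdZ.le hcon
    omega
  have hπ1 : P.valuation Pi < 1 := by
    by_contra hcon
    rw [not_lt] at hcon
    have h1 : 1 ≤ P.valuation Pi ^ q := one_le_zpow₀ hcon hq0.le
    rw [← hq] at h1
    exact absurd hγ1 (not_lt.mpr h1)
  refine ⟨Pi, q.toNat, ?_, ?_, hPi0, hPiH, hπ1, ?_, fun x hx0 hxH => ?_⟩
  · have := Int.toNat_of_nonneg hq0.le
    omega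
  · have h1 := Int.toNat_of_nonneg hq0.le
    have hdZ : (1 : ℤ) ≤ d := by exact_mod_cast hd
    have h2 : q ≤ (d : ℤ) * q := le_mul_of_one_le_left hq0.le hdZ
    omega
  · rw [← zpow_natCast, Int.toNat_of_nonneg hq0.le, ← hq]
  · obtain ⟨q', hq'', -⟩ := key x hx0 hxH
    exact ⟨q', hq''⟩

end Setting

end Fermat.Agent.TW.Flat.Loc.MonoB
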