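/-
TW-FLAT, `Loc.Mono` (shadow of row 338), part 3: Teichmüller expansions and continuity.

* `Unif P H ϖ Pi e'` : `Π` is a uniformiser of the `H`-fixed elements, `v(Π)^e' = v(ϖ)`;
* `exists_expansion_pow` : every integral `H`-fixed `x` is, for every `N`, of the form
  `Σ_{j<e'} b_j Π^j + ϖ^N x'` with `b_j` fixed by `G_F` and `x'` integral `H`-fixed;
* `sum_apply_eq_zero` : a `Qb`-combination `Σ c_i τ_i` of the conjugations which kills
  `1, Π, …, Π^(e'−1)` kills every `H`-fixed element (it is continuous, and the `G_F`-fixed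
  combinations of the `Π^j` are dense).
-/
import Mathlib
import Fermat.Agent.TW.Flat.Local.Tame
import Fermat.Agent.TW.Flat.Local.Teich
import Fermat.Agent.TW.Flat.Local.MonoB.Group
import Fermat.Agent.TW.Flat.Local.MonoB.Unif

set_option autoImplicit false

namespace Fermat.Agent.TW.Flat.Loc.MonoB

open Fermat.Agent.S53 Fermat.Agent.TW.Flat

local notation "Qb" => AlgebraicClosure ℚ

/-- `Π` is a uniformiser of the `H`-fixed elements, of ramification index `e'` over `ϖ`. -/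
structure Unif (P : ValuationSubring Qb) (H : Subgroup GQ) (ϖ Pi : Qb) (e' : ℕ) : Prop where
  pos : 0 < e'
  ne_zero : Pi ≠ 0
  fixed : ∀ g ∈ H, g Pi = Pi
  lt_one : P.valuation Pi < 1
  pow : P.valuation Pi ^ e' = P.valuation ϖ
  val : ∀ x : Qb, x ≠ 0 → (∀ g ∈ H, g x = x) → ∃ q : ℤ, P.valuation x = P.valuation Pi ^ q

section Setting

variable {p : ℕ} [hp : Fact p.Prime] {P : ValuationSubring Qb} {e : ℕ} {ϖ : Qb}
  {H : Subgroup GQ} {n : ℕ} {τ : Fin n → GQ} {Pi : Qb} {e' : ℕ}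

theorem Unif.val_pos (hU : Unif P H ϖ Pi e') : 0 < P.valuation Pi :=
  zero_lt_iff.mpr ((Valuation.ne_zero_iff _).mpr hU.ne_zero)

/-- Remainders of expansions are `H`-fixed. -/
theorem sub_sum_fixed (h : CosetData (GF P ϖ) H n τ) (hU : Unif P H ϖ Pi e') {x : Qb}
    (hxH : ∀ g ∈ H, g x = x) (a : ℕ → Qb) (ha : ∀ j, ∀ σ ∈ P.inertiaSubgroupIn ℚ, σ (a j) = a j)
    (J : ℕ) : ∀ g ∈ H, g (x - ∑ j ∈ Finset.range J, a j * Pi ^ j) =
      x - ∑ j ∈ Finset.range J, a j * Pi ^ j := by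
  intro g hg
  rw [map_sub, map_sum, hxH g hg]
  congr 1
  refine Finset.sum_congr rfl fun j _ => ?_
  rw [map_mul, map_pow, hU.fixed g hg, ha j g (mem_GF.mp (h.le hg)).1]

/-- One step of the expansion. -/
theorem exists_approx_step (h : CosetData (GF P ϖ) H n τ) (hP : P.LiesOverPrime p)
    (hU : Unif P H ϖ Pi e') {x : Qb} (hxH : ∀ g ∈ H, g x = x) (j : ℕ)
    (hxj : P.valuation x ≤ P.valuation Pi ^ j) :
    ∃ a : Qb, a ∈ P ∧ (∀ σ ∈ P.inertiaSubgroupIn ℚ, σ a = a) ∧
      P.valuation (x - a * Pi ^ j) ≤ P.valuation Pi ^ (j + 1) := by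
  have hπ0 : 0 < P.valuation Pi := hU.val_pos
  have aux : ∀ y : Qb, (∀ g ∈ H, g y = y) → P.valuation y < P.valuation Pi ^ j →
      P.valuation y ≤ P.valuation Pi ^ (j + 1) := by
    intro y hyH hy
    by_cases hy0 : y = 0
    · rw [hy0, map_zero]
      exact zero_le
    · obtain ⟨q, hq⟩ := hU.val y hy0 hyH
      rw [hq, ← zpow_natCast] at hy
      have h1 : (j : ℤ) < q := (zpow_lt_zpow_iff_right_of_lt_one₀ hπ0 hU.lt_one).mp hy
      rw [hq, ← zpow_natCast]
      exact (zpow_le_zpow_iff_right_of_lt_one₀ hπ0 hU.lt_one).mpr (by push_cast; omega)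
  rcases lt_or_eq_of_le hxj with hlt | heq
  · exact ⟨0, P.zero_mem, fun σ _ => map_zero σ, by
      rw [zero_mul, sub_zero]
      exact aux x hxH hlt⟩
  · have hu : IsPUnit P (x / Pi ^ j) := (Basic.isPUnit_iff_valuation_eq_one P _).mpr (by
      rw [map_div₀, map_pow, heq]
      exact div_self (pow_ne_zero _ hπ0.ne'))
    obtain ⟨ζ, m, hm, hpm, hζ, hζu⟩ := Basic.teich p P hP _ hu
    have hζI : ∀ σ ∈ P.inertiaSubgroupIn ℚ, σ ζ = ζ := Basic.rootFix p P hP ζ m hm hpm hζ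
    have hζv : P.valuation ζ = 1 :=
      eq_one_of_pow_eq_one hm.ne' (by rw [← map_pow, hζ, map_one])
    refine ⟨ζ, (P.valuation_le_one_iff _).mp hζv.le, hζI, ?_⟩
    apply aux
    · intro g hg
      rw [map_sub, map_mul, map_pow, hxH g hg, hU.fixed g hg, hζI g (mem_GF.mp (h.le hg)).1]
    · have hPij : Pi ^ j ≠ 0 := pow_ne_zero _ hU.ne_zero
      have e1 : x - ζ * Pi ^ j = (x / Pi ^ j - ζ) * Pi ^ j := by
        field_simp
      rw [e1, map_mul, map_pow]
      have h1 : P.valuation (x / Pi ^ j - ζ) < 1 := P.mem_nonunits_iff.mp hζu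
      calc P.valuation (x / Pi ^ j - ζ) * P.valuation Pi ^ j
          < 1 * P.valuation Pi ^ j := mul_lt_mul_of_pos_right h1 (pow_pos hπ0 j)
        _ = P.valuation Pi ^ j := one_mul _

/-- Expansion modulo `ϖ`. -/
theorem exists_expansion_mod (h : CosetData (GF P ϖ) H n τ) (hP : P.LiesOverPrime p)
    (hU : Unif P H ϖ Pi e') {x : Qb} (hxP : x ∈ P) (hxH : ∀ g ∈ H, g x = x) :
    ∃ a : ℕ → Qb, (∀ j, a j ∈ P ∧ ∀ σ ∈ P.inertiaSubgroupIn ℚ, σ (a j) = a j) ∧
      ∃ x' : Qb, x' ∈ P ∧ (∀ g ∈ H, g x' = x') ∧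
        x = ∑ j ∈ Finset.range e', a j * Pi ^ j + ϖ * x' := by
  classical
  have hstep : ∀ J : ℕ, ∃ a : ℕ → Qb,
      (∀ j, a j ∈ P ∧ ∀ σ ∈ P.inertiaSubgroupIn ℚ, σ (a j) = a j) ∧
      P.valuation (x - ∑ j ∈ Finset.range J, a j * Pi ^ j) ≤ P.valuation Pi ^ J := by
    intro J
    induction J with
    | zero =>
      refine ⟨fun _ => 0, fun _ => ⟨P.zero_mem, fun σ _ => map_zero σ⟩, ?_⟩
      rw [Finset.range_zero, Finset.sum_empty, sub_zero, pow_zero]
      exact (P.valuation_le_one_iff x).mpr hxP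
    | succ J ih =>
      obtain ⟨a, ha, hav⟩ := ih
      obtain ⟨b, hbP, hbI, hbv⟩ := exists_approx_step h hP hU
        (sub_sum_fixed h hU hxH a (fun j => (ha j).2) J) J hav
      refine ⟨Function.update a J b, fun j => ?_, ?_⟩
      · by_cases hj : j = J
        · subst hj
          rw [Function.update_self]
          exact ⟨hbP, hbI⟩
        · rw [Function.update_of_ne hj]
          exact ha j
      · rw [Finset.sum_range_succ, Function.update_self]
        have e1 : ∑ j ∈ Finset.range J, Function.update a J b j * Pi ^ j =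
            ∑ j ∈ Finset.range J, a j * Pi ^ j :=
          Finset.sum_congr rfl fun j hj => by
            rw [Function.update_of_ne (Finset.mem_range.mp hj).ne]
        rw [e1, ← sub_sub]
        exact hbv
  obtain ⟨a, ha, hav⟩ := hstep e'
  rw [hU.pow] at hav
  have hγ0 : 0 < P.valuation ϖ := by
    rw [← hU.pow]
    exact pow_pos hU.val_pos e'
  have hϖ0 : ϖ ≠ 0 := (Valuation.ne_zero_iff _).mp hγ0.ne'
  have hϖH : ∀ g ∈ H, g ϖ = ϖ := fun g hg => (mem_GF.mp (h.le hg)).2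
  refine ⟨a, ha, (x - ∑ j ∈ Finset.range e', a j * Pi ^ j) / ϖ, ?_, ?_, ?_⟩
  · rw [← P.valuation_le_one_iff, map_div₀]
    exact (div_le_one₀ hγ0).mpr hav
  · intro g hg
    rw [map_div₀, sub_sum_fixed h hU hxH a (fun j => (ha j).2) e' g hg, hϖH g hg]
  · field_simp
    ring

/-- Expansion modulo `ϖ ^ N`, with coefficients fixed by `G_F`. -/
theorem exists_expansion_pow (h : CosetData (GF P ϖ) H n τ) (hP : P.LiesOverPrime p)
    (hU : Unif P H ϖ Pi e') {x : Qb} (hxP : x ∈ P) (hxH : ∀ g ∈ H, g x = x) (N : ℕ) :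
    ∃ b : ℕ → Qb, (∀ j, ∀ σ ∈ GF P ϖ, σ (b j) = b j) ∧
      ∃ x' : Qb, x' ∈ P ∧ (∀ g ∈ H, g x' = x') ∧
        x = ∑ j ∈ Finset.range e', b j * Pi ^ j + ϖ ^ N * x' := by
  induction N with
  | zero =>
    exact ⟨fun _ => 0, fun _ σ _ => map_zero σ, x, hxP, hxH, by simp⟩
  | succ N ih =>
    obtain ⟨b, hb, x', hx'P, hx'H, hx⟩ := ih
    obtain ⟨a, ha, x'', hx''P, hx''H, hx'e⟩ := exists_expansion_mod h hP hU hx'P hx'H
    refine ⟨fun j => b j + ϖ ^ N * a j, fun j σ hσ => ?_, x'', hx''P, hx''H, ?_⟩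
    · rw [map_add, map_mul, map_pow, hb j σ hσ, (mem_GF.mp hσ).2, (ha j).2 σ (mem_GF.mp hσ).1]
    · have e1 : ∑ j ∈ Finset.range e', (b j + ϖ ^ N * a j) * Pi ^ j =
          ∑ j ∈ Finset.range e', b j * Pi ^ j + ϖ ^ N * ∑ j ∈ Finset.range e', a j * Pi ^ j := by
        rw [Finset.mul_sum, ← Finset.sum_add_distrib]
        exact Finset.sum_congr rfl fun j _ => by ring
      rw [e1, pow_succ]
      conv_lhs => rw [hx, hx'e]
      ring

/-- **Continuity.** A combination of the conjugations which kills the powers `Π^j`, `j < e'`,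
kills all `H`-fixed elements. -/
theorem sum_apply_eq_zero (h : CosetData (GF P ϖ) H n τ) (hP : P.LiesOverPrime p) (he : 0 < e)
    (hϖ : ϖ ^ e = -(p : Qb)) (hn : 0 < n) (hU : Unif P H ϖ Pi e') (c : Fin n → Qb)
    (hc : ∀ j < e', ∑ i, c i * τ i (Pi ^ j) = 0) :
    ∀ x : Qb, (∀ g ∈ H, g x = x) → ∑ i, c i * τ i x = 0 := by
  classical
  have hϖ0 : ϖ ≠ 0 := Tame.pi_ne_zero he hϖ
  have hγ0 : 0 < P.valuation ϖ := Tame.val_pi_pos he hϖ
  have hγ1 : P.valuation ϖ < 1 := Tame.val_pi_lt_one hP hϖ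
  have hτϖ : ∀ i, τ i ϖ = ϖ := fun i => (mem_GF.mp (h.mem i)).2
  -- (1) vanishing on the combinations of the powers of `Π`
  have hW : ∀ b : ℕ → Qb, (∀ j, ∀ σ ∈ GF P ϖ, σ (b j) = b j) →
      ∑ i, c i * τ i (∑ j ∈ Finset.range e', b j * Pi ^ j) = 0 := by
    intro b hb
    have e1 : ∀ i, c i * τ i (∑ j ∈ Finset.range e', b j * Pi ^ j) =
        ∑ j ∈ Finset.range e', b j * (c i * τ i (Pi ^ j)) := by
      intro i
      rw [map_sum, Finset.mul_sum]
      refine Finset.sum_congr rfl fun j _ => ?_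
      rw [map_mul, hb j (τ i) (h.mem i)]
      ring
    rw [Finset.sum_congr rfl fun i _ => e1 i, Finset.sum_comm]
    refine Finset.sum_eq_zero fun j hj => ?_
    rw [← Finset.mul_sum, hc j (Finset.mem_range.mp hj), mul_zero]
  -- (2) integral elements
  have hint : ∀ x : Qb, x ∈ P → (∀ g ∈ H, g x = x) → ∑ i, c i * τ i x = 0 := by
    intro x hxP hxH
    by_contra hS
    haveI : Nonempty (Fin n) := ⟨⟨0, hn⟩⟩
    obtain ⟨i₁, -, hmax⟩ := Finset.exists_max_image Finset.univ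
      (fun i => P.valuation (c i)) Finset.univ_nonempty
    have hc1 : c i₁ ≠ 0 := by
      intro h0
      apply hS
      refine Finset.sum_eq_zero fun i _ => ?_
      have h1 : P.valuation (c i) ≤ 0 := by
        have h2 := hmax i (Finset.mem_univ i)
        rwa [h0, map_zero] at h2
      rw [(Valuation.zero_iff _).mp (le_antisymm h1 zero_le), zero_mul]
    have hc1v : 0 < P.valuation (c i₁) := zero_lt_iff.mpr ((Valuation.ne_zero_iff _).mpr hc1)
    have hd0 : (∑ i, c i * τ i x) / c i₁ ≠ 0 := div_ne_zero hS hc1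
    obtain ⟨N, hN⟩ := Basic.arch p P hP ϖ (P.mem_nonunits_iff.mpr hγ1) _ hd0
    rw [← P.valuation_le_one_iff, map_div₀, map_pow,
      div_le_one₀ (zero_lt_iff.mpr ((Valuation.ne_zero_iff _).mpr hd0)), map_div₀] at hN
    obtain ⟨b, hb, x', hx'P, hx'H, hx⟩ := exists_expansion_pow h hP hU hxP hxH (N + 1)
    have e2 : ∑ i, c i * τ i x = ϖ ^ (N + 1) * ∑ i, c i * τ i x' := by
      have e3 : ∀ i, c i * τ i x = c i * τ i (∑ j ∈ Finset.range e', b j * Pi ^ j) +
          ϖ ^ (N + 1) * (c i * τ i x') := by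
        intro i
        conv_lhs => rw [hx]
        rw [map_add, map_mul, map_pow, hτϖ i]
        ring
      rw [Finset.sum_congr rfl fun i _ => e3 i, Finset.sum_add_distrib, hW b hb, zero_add,
        ← Finset.mul_sum]
    have h3 : P.valuation (∑ i, c i * τ i x') ≤ P.valuation (c i₁) := by
      apply Valuation.map_sum_le
      intro i _
      rw [map_mul, val_apply (h.mem i)]
      exact (mul_le_mul' (hmax i (Finset.mem_univ i))
        ((P.valuation_le_one_iff _).mpr hx'P)).trans (mul_one _).le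
    have h4 : P.valuation (∑ i, c i * τ i x) < P.valuation (∑ i, c i * τ i x) := by
      calc P.valuation (∑ i, c i * τ i x)
          = P.valuation ϖ ^ (N + 1) * P.valuation (∑ i, c i * τ i x') := by
            conv_lhs => rw [e2]
            rw [map_mul, map_pow]
        _ ≤ P.valuation ϖ ^ (N + 1) * P.valuation (c i₁) := mul_le_mul' le_rfl h3
        _ = P.valuation ϖ ^ N * (P.valuation ϖ * P.valuation (c i₁)) := by
            rw [pow_succ, mul_assoc]
        _ < P.valuation ϖ ^ N * (1 * P.valuation (c i₁)) :=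
            mul_lt_mul_of_pos_left (mul_lt_mul_of_pos_right hγ1 hc1v) (pow_pos hγ0 N)
        _ = P.valuation ϖ ^ N * P.valuation (c i₁) := by rw [one_mul]
        _ ≤ P.valuation (∑ i, c i * τ i x) / P.valuation (c i₁) * P.valuation (c i₁) :=
            mul_le_mul' hN le_rfl
        _ = P.valuation (∑ i, c i * τ i x) := div_mul_cancel₀ _ hc1v.ne'
    exact lt_irrefl _ h4
  -- (3) the general case
  intro x hxH
  by_cases hx0 : x = 0
  · subst hx0
    simp
  · obtain ⟨k, hk⟩ := Basic.arch p P hP ϖ (P.mem_nonunits_iff.mpr hγ1) x⁻¹ (inv_ne_zero hx0)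
    rw [div_inv_eq_mul] at hk
    have h5 := hint (ϖ ^ k * x) hk (fun g hg => by
      rw [map_mul, map_pow, (mem_GF.mp (h.le hg)).2, hxH g hg])
    have e4 : ∑ i, c i * τ i (ϖ ^ k * x) = ϖ ^ k * ∑ i, c i * τ i x := by
      rw [Finset.mul_sum]
      refine Finset.sum_congr rfl fun i _ => ?_
      rw [map_mul, map_pow, hτϖ i]
      ring
    rw [e4] at h5
    exact (mul_eq_zero.mp h5).resolve_left (pow_ne_zero _ hϖ0)

end Setting

end Fermat.Agent.TW.Flat.Loc.MonoB
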